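import Fermat.Statements.S05
import Fermat.Agent.S05.LocalMain
import Fermat.Agent.S05.VarChange
import Fermat.Agent.S05.Inertia
import Fermat.Agent.S05.FreyArith

set_option autoImplicit false
open WeierstrassCurve WeierstrassCurve.Affine WeierstrassCurve.Affine.Point
open CuspForm ModularFormClass UpperHalfPlane
open FreyPackage

namespace Fermat.Agent.S05

local notation "Qbar" => AlgebraicClosure ℚ

/-- the Frey curve over `Qbar`: coefficients. -/
lemma frey_a₁ (P : FreyPackage) : (P.freyCurve⁄Qbar).a₁ = 1 := by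
  simp [WeierstrassCurve.baseChange, WeierstrassCurve.map, FreyPackage.freyCurve]

lemma frey_a₃ (P : FreyPackage) : (P.freyCurve⁄Qbar).a₃ = 0 := by
  simp [WeierstrassCurve.baseChange, WeierstrassCurve.map, FreyPackage.freyCurve]

lemma frey_a₆ (P : FreyPackage) : (P.freyCurve⁄Qbar).a₆ = 0 := by
  simp [WeierstrassCurve.baseChange, WeierstrassCurve.map, FreyPackage.freyCurve]

lemma frey_a₂ (P : FreyPackage) :
    (P.freyCurve⁄Qbar).a₂ = (((P.b : Qbar)) ^ P.p - 1 - ((P.a : Qbar)) ^ P.p) / 4 := by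
  simp [WeierstrassCurve.baseChange, WeierstrassCurve.map, FreyPackage.freyCurve]

lemma frey_a₄ (P : FreyPackage) :
    (P.freyCurve⁄Qbar).a₄ = -(((P.a : Qbar)) ^ P.p) * ((P.b : Qbar)) ^ P.p / 16 := by
  simp [WeierstrassCurve.baseChange, WeierstrassCurve.map, FreyPackage.freyCurve]

lemma frey_FLT (P : FreyPackage) :
    ((P.a : Qbar)) ^ P.p + ((P.b : Qbar)) ^ P.p = ((P.c : Qbar)) ^ P.p := by
  have := congrArg (fun z : ℤ => (z : Qbar)) P.hFLT
  simpa using this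

/-- the core: one of the three shapes. -/
theorem core_of_data (P : FreyPackage) {q : ℕ} (hq : q.Prime) (hq2 : q ≠ 2) (hqp : q ≠ P.p)
    (A : ValuationSubring Qbar) (hA : A.LiesOverPrime q)
    (σ : Qbar ≃ₐ[ℚ] Qbar) (hσ : σ ∈ A.inertiaSubgroupIn ℚ)
    (nα nβ nγ : ℤ) (ρ : Qbar)
    (hsum : (nα : Qbar) ^ P.p + (nβ : Qbar) ^ P.p = (nγ : Qbar) ^ P.p)
    (hnα0 : nα ≠ 0) (hnβ : ¬ (q : ℤ) ∣ nβ) (hnγ : ¬ (q : ℤ) ∣ nγ)
    (hσρ : σ ρ = ρ)
    (hρ : -ρ ^ 3 + (4 * (P.freyCurve⁄Qbar).a₂ + 1) * ρ ^ 2 - 16 * (P.freyCurve⁄Qbar).a₄ * ρ = 0)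
    (hA₂ : 4 * (P.freyCurve⁄Qbar).a₂ + 1 - 3 * ρ = (nβ : Qbar) ^ P.p - (nα : Qbar) ^ P.p)
    (hA₄ : 16 * (P.freyCurve⁄Qbar).a₄ - 2 * ρ * (4 * (P.freyCurve⁄Qbar).a₂ + 1) + 3 * ρ ^ 2 =
      -((nα : Qbar) ^ P.p * (nβ : Qbar) ^ P.p))
    (T : (P.freyCurve⁄Qbar).Point) (hT : P.p • T = 0) :
    σ • T = T := by
  have hA' : (q : Qbar) ∈ A.nonunits := hA
  have h2K : (2 : Qbar) ≠ 0 := two_ne_zero
  obtain ⟨ψ, hψinj, hψ⟩ := VarChange.exists_pointHom (P.freyCurve⁄Qbar) (frey_a₁ P) (frey_a₃ P)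
    (frey_a₆ P) h2K ρ hρ
  apply hψinj
  have hσI := Inertia.sub_mem A hσ
  have hp : P.p.Prime := P.pp
  have hp2 : P.p ≠ 2 := by have := P.hp5; omega
  have h2v : A.valuation (2 : Qbar) = 1 := by
    have := FreyArith.val_natCast_eq_one A hq hA' (n := 2)
      (fun h => hq2 ((Nat.prime_dvd_prime_iff_eq hq Nat.prime_two).mp h))
    simpa using this
  have hpv : A.valuation (P.p : Qbar) = 1 :=
    FreyArith.val_natCast_eq_one A hq hA'
      (fun h => hqp ((Nat.prime_dvd_prime_iff_eq hq hp).mp h))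
  have hβ : A.valuation ((nβ : Qbar) ^ P.p) = 1 := FreyArith.val_intCast_pow_eq_one A hq hA' hnβ _
  have hαβ : A.valuation ((nα : Qbar) ^ P.p + (nβ : Qbar) ^ P.p) = 1 := by
    rw [hsum]; exact FreyArith.val_intCast_pow_eq_one A hq hA' hnγ _
  have hα : A.valuation ((nα : Qbar) ^ P.p) = 1 ∨
      ((nα : Qbar) ^ P.p = (nα : Qbar) ^ P.p ∧ A.valuation ((nα : Qbar) ^ P.p) < 1 ∧
        (nα : Qbar) ^ P.p ≠ 0) := by
    by_cases hd : (q : ℤ) ∣ nα
    · right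
      refine ⟨rfl, ?_, ?_⟩
      · rw [map_pow]
        exact pow_lt_one₀ zero_le (FreyArith.val_intCast_lt_one A hA' hd) hp.ne_zero
      · exact pow_ne_zero _ (Int.cast_ne_zero.mpr hnα0)
    · left
      exact FreyArith.val_intCast_pow_eq_one A hq hA' hd _
  have hσa0 : (σ : Qbar →+* Qbar) (nα : Qbar) = (nα : Qbar) := map_intCast _ nα
  have hpT : P.p • ψ T = 0 := by rw [← map_nsmul, hT, _root_.map_zero]
  have hσT : σ • T = Point.map σ.toAlgHom T := rfl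
  have hpT' : P.p • ψ (σ • T) = 0 := by
    rw [← map_nsmul, hσT, ← map_nsmul, hT, _root_.map_zero, _root_.map_zero]
  refine LocalMain.main A.valuation (σ : Qbar →+* Qbar) (fun x hx => hσI x hx) hA₂ hA₄ hσa0
    h2v hp hp2 hpv hβ hαβ hα hpT hpT' ?_
  cases T with
  | zero =>
    left
    exact ⟨_root_.map_zero ψ, _root_.map_zero ψ⟩
  | some x y h =>
    right
    have hmap : σ • (Point.some x y h : (P.freyCurve⁄Qbar).Point) =
        Point.some (σ x) (σ y)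
          ((WeierstrassCurve.Affine.baseChange_nonsingular _ σ.toAlgHom.injective ..).mpr h) := rfl
    obtain ⟨h1, h2, h3⟩ := hψ x y h
    rw [hmap]
    obtain ⟨h1', h2', h3'⟩ := hψ (σ x) (σ y)
      ((WeierstrassCurve.Affine.baseChange_nonsingular _ σ.toAlgHom.injective ..).mpr h)
    refine ⟨h1, h1', ?_, ?_⟩
    · rw [h2', h2]
      simp only [RingHom.coe_coe, map_add, map_mul, hσρ, map_ofNat]
    · rw [h3', h3]
      simp only [RingHom.coe_coe, map_add, map_mul, map_ofNat]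

theorem core (P : FreyPackage) {q : ℕ} (hq : q.Prime) (hq2 : q ≠ 2) (hqp : q ≠ P.p)
    (A : ValuationSubring Qbar) (hA : A.LiesOverPrime q)
    (σ : Qbar ≃ₐ[ℚ] Qbar) (hσ : σ ∈ A.inertiaSubgroupIn ℚ)
    (T : (P.freyCurve⁄Qbar).Point) (hT : P.p • T = 0) :
    σ • T = T := by
  have hodd : Odd P.p := P.hp_odd
  have hF := frey_FLT P
  have e2 := frey_a₂ P
  have e4 := frey_a₄ P
  rcases FreyArith.cases P hq with ⟨hb, hc⟩ | ⟨ha, hc⟩ | ⟨ha, hb⟩
  · -- q ∤ b, q ∤ c : α = a^p, β = b^p, ρ = 0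
    refine core_of_data P hq hq2 hqp A hA σ hσ P.a P.b P.c 0 hF P.ha0 hb hc (_root_.map_zero _)
      ?_ ?_ ?_ T hT
    · ring
    · rw [e2]; ring
    · rw [e2, e4]; ring
  · -- q ∤ a, q ∤ c : α = b^p, β = (-c)^p, α + β = (-a)^p, ρ = b^p
    have hc' : ¬ (q : ℤ) ∣ -P.c := by rwa [dvd_neg]
    have ha' : ¬ (q : ℤ) ∣ -P.a := by rwa [dvd_neg]
    refine core_of_data P hq hq2 hqp A hA σ hσ P.b (-P.c) (-P.a) ((P.b : Qbar) ^ P.p) ?_
      P.hb0 hc' ha' ?_ ?_ ?_ ?_ T hT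
    · push_cast
      rw [hodd.neg_pow, hodd.neg_pow]
      linear_combination hF
    · rw [map_pow, map_intCast]
    · rw [e2, e4]; ring
    · push_cast
      rw [e2, hodd.neg_pow]
      linear_combination -hF
    · push_cast
      rw [e2, e4, hodd.neg_pow]
      linear_combination ((P.b : Qbar) ^ P.p) * hF
  · -- q ∤ a, q ∤ b : α = (-c)^p, β = a^p, α + β = (-b)^p, ρ = -a^p
    have hb' : ¬ (q : ℤ) ∣ -P.b := by rwa [dvd_neg]
    have hc0 : -P.c ≠ 0 := neg_ne_zero.mpr P.hc0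
    refine core_of_data P hq hq2 hqp A hA σ hσ (-P.c) P.a (-P.b) (-((P.a : Qbar) ^ P.p)) ?_
      hc0 ha hb' ?_ ?_ ?_ ?_ T hT
    · push_cast
      rw [hodd.neg_pow, hodd.neg_pow]
      linear_combination hF
    · rw [map_neg, map_pow, map_intCast]
    · rw [e2, e4]; ring
    · push_cast
      rw [e2, hodd.neg_pow]
      linear_combination hF
    · push_cast
      rw [e2, e4, hodd.neg_pow]
      linear_combination ((P.a : Qbar) ^ P.p) * hF

theorem result (P : FreyPackage) {q : ℕ} (hq : q.Prime) (hq2 : q ≠ 2) (hqp : q ≠ P.p) : P.GaloisRepUnramifiedAt q := by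
  intro A hA σ hσ x
  apply Subtype.ext
  have hx : (P.p : ℤ) • x.1 = 0 := (Submodule.mem_torsionBy_iff _ _).mp x.2
  rw [natCast_zsmul] at hx
  exact core P hq hq2 hqp A hA σ hσ x.1 hx

end Fermat.Agent.S05
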