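-- Statement S07: every weight-2 cusp form of level Γ₀(2) vanishes.
-- Proof: Sturm bound for Γ₀(N) (prelude lemma) with index of Γ₀(2) at most 4, so only the constant
-- q-expansion coefficient has to vanish, which it does for a cusp form.
import Fermat.Statements.S07
import Fermat.Prelude.Thm_ModularForm_sturm_bound_Gamma0
import Fermat.Prelude.Thm_CongruenceSubgroup_one_mem_strictPeriods_Gamma0

set_option autoImplicit false
open WeierstrassCurve WeierstrassCurve.Affine WeierstrassCurve.Affine.Point
open CuspForm ModularFormClass UpperHalfPlane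
open ModularForm

namespace Fermat.Agent.S07

open CongruenceSubgroup Matrix MatrixGroups in
/-- The index of `Γ₀(2)` in `SL(2, ℤ)` is at most `4` (it is in fact `3`): the first column mod `2`
separates left cosets. -/
theorem index_Gamma0_two_le : (Gamma0 2).index ≤ 4 := by
  classical
  let φ : SL(2, ℤ) → ZMod 2 × ZMod 2 :=
    fun g => (((g 0 0 : ℤ) : ZMod 2), ((g 1 0 : ℤ) : ZMod 2))
  have hφ : ∀ a b : SL(2, ℤ), φ a = φ b → a⁻¹ * b ∈ Gamma0 2 := by
    intro a b hab
    rw [Gamma0_mem]
    have h0 : ((a 0 0 : ℤ) : ZMod 2) = ((b 0 0 : ℤ) : ZMod 2) := congrArg Prod.fst hab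
    have h1 : ((a 1 0 : ℤ) : ZMod 2) = ((b 1 0 : ℤ) : ZMod 2) := congrArg Prod.snd hab
    rw [Matrix.SpecialLinearGroup.coe_mul, Matrix.SpecialLinearGroup.coe_inv,
      Matrix.adjugate_fin_two, Matrix.mul_apply, Fin.sum_univ_two]
    simp only [Matrix.cons_val_one, Matrix.cons_val_zero, Matrix.of_apply,
      Matrix.cons_val', Matrix.cons_val_fin_one]
    push_cast
    rw [← h0, ← h1]
    ring
  have hinj : Function.Injective (fun x : SL(2, ℤ) ⧸ Gamma0 2 => φ (Quotient.out x)) := by
    intro x y hxy
    have h2 : (QuotientGroup.mk (Quotient.out x) : SL(2, ℤ) ⧸ Gamma0 2) =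
        QuotientGroup.mk (Quotient.out y) :=
      QuotientGroup.eq.mpr (hφ _ _ hxy)
    simpa using h2
  have hcard := Nat.card_le_card_of_injective _ hinj
  have h4 : Nat.card (ZMod 2 × ZMod 2) = 4 := by
    simp
  rw [h4] at hcard
  exact hcard

theorem result (f : CuspForm (CongruenceSubgroup.Gamma0 2) 2) : f = 0 := by
  have hidx := index_Gamma0_two_le
  have hbound : ((2 : ℤ) * ((CongruenceSubgroup.Gamma0 2).index : ℤ)).toNat / 12 = 0 := by
    omega
  have h1 : CuspForm.toModularFormₗ f = 0 := by
    refine ModularForm.sturm_bound_Gamma0 2 (k := 2) (CuspForm.toModularFormₗ f) ?_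
    intro n hn
    rw [hbound] at hn
    obtain rfl : n = 0 := by omega
    exact CuspFormClass.qExpansion_coeff_zero f one_pos
      (CongruenceSubgroup.one_mem_strictPeriods_Gamma0 2)
  exact CuspForm.toModularFormₗ_injective (by rw [h1, _root_.map_zero])

end Fermat.Agent.S07
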