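-- Statement S10: the mod-p representation of the Frey curve has no Galois-stable cofixed line
-- when p ∈ {5, 7, 13}.  Proof: there is no Frey package with such p (Fermat's Last Theorem for
-- the exponents 5, 7, 13, à la Kummer: Sophie Germain for the first case, descent in ℤ[ζ_p]
-- (a PID) with Kummer's lemma for the second case).
import Fermat.Statements.S10
import Fermat.Agent.S11.Assembly
import Fermat.Agent.Lib.Kummer.KummerLemma
import Fermat.Agent.S10.PID13

set_option autoImplicit false
open WeierstrassCurve WeierstrassCurve.Affine WeierstrassCurve.Affine.Point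
open CuspForm ModularFormClass UpperHalfPlane
open FreyPackage

namespace Fermat.Agent.S10

theorem result (P : FreyPackage) (hp : P.p = 5 ∨ P.p = 7 ∨ P.p = 13) : ¬ HasGaloisStableCofixedLine (K := AlgebraicClosure ℚ) ℚ P.freyCurve P.p := by
  have hcyc5 := Fermat.Agent.S11.Assembly.isCyclotomicExtension_rat 5
  have hcyc7 := Fermat.Agent.S11.Assembly.isCyclotomicExtension_rat 7
  have hcyc13 := Fermat.Agent.S11.Assembly.isCyclotomicExtension_rat 13
  exact Fermat.Agent.S11.Assembly.s10_of_kummer
    (fun u h => Fermat.Agent.Lib.Kummer.kummer_lemma_five u h)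
    (fun u h => Fermat.Agent.Lib.Kummer.kummer_lemma_seven u h)
    (fun u h => Fermat.Agent.Lib.Kummer.kummer_lemma_thirteen u h)
    (Fermat.Agent.S10.thirteen_pid (CyclotomicField 13 ℚ)) P hp

end Fermat.Agent.S10
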