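-- Statement S11: the mod-p representation of the Frey curve has no Galois-stable cofixed line
-- when p = 11.  Proof: there is no Frey package with p = 11 (Fermat's Last Theorem for the
-- exponent 11, à la Kummer: Sophie Germain for the first case, descent in ℤ[ζ₁₁] (a PID) with
-- Kummer's lemma for the second case).
import Fermat.Statements.S11
import Fermat.Agent.S11.Assembly
import Fermat.Agent.Lib.Kummer.KummerLemma

set_option autoImplicit false
open WeierstrassCurve WeierstrassCurve.Affine WeierstrassCurve.Affine.Point
open CuspForm ModularFormClass UpperHalfPlane
open FreyPackage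

namespace Fermat.Agent.S11

theorem result (P : FreyPackage) (hp : P.p = 11) : ¬ HasGaloisStableCofixedLine (K := AlgebraicClosure ℚ) ℚ P.freyCurve P.p := by
  have hcyc := Fermat.Agent.S11.Assembly.isCyclotomicExtension_rat 11
  exact Fermat.Agent.S11.Assembly.s11_of_kummer
    (fun u h => Fermat.Agent.Lib.Kummer.kummer_lemma_eleven u h) P hp

end Fermat.Agent.S11
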