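import Fermat.Statements.S13
import Fermat.Agent.S05
import Fermat.Agent.S13.Reduction
import Fermat.Agent.S13.AtP
import Fermat.Agent.S13.SigmaFrey
import Fermat.Agent.S13.B2Unipotent
import Fermat.Agent.S13.B2RationalH5
import Fermat.Agent.S13.TorsionXOnly.Frey
import Fermat.Agent.S13.BpCore
import Fermat.Agent.S13.Supersingular
import Fermat.Agent.Lib.InertiaBridge.Top

set_option autoImplicit false
open WeierstrassCurve WeierstrassCurve.Affine WeierstrassCurve.Affine.Point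
open CuspForm ModularFormClass UpperHalfPlane
open FreyPackage

namespace Fermat.Agent.S13

/-- (I5) Minkowski. -/
theorem blockI5 (H : Subgroup GQ) (_hN : H.Normal) (hH : IsOpen (H : Set GQ))
    (h : ∀ ℓ : ℕ, ℓ.Prime → ∀ A : ValuationSubring Qbar, A.LiesOverPrime ℓ →
      A.inertiaSubgroupIn ℚ ≤ H) : H = ⊤ :=
  haveI := isGalois_Qbar
  Fermat.Agent.Lib.InertiaBridge.Top.eq_top_of_isOpen_of_inertia_le H hH h

/-- (I3) at odd `ℓ ≠ p`: S05. -/
theorem blockI3_odd (P : FreyPackage) (ℓ : ℕ) (hℓ : ℓ.Prime) (hℓ2 : ℓ ≠ 2) (hℓp : ℓ ≠ P.p)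
    (A : ValuationSubring Qbar) (hA : A.LiesOverPrime ℓ) (σ : GQ) (hσ : σ ∈ A.inertiaSubgroupIn ℚ)
    (T : (P.freyCurve⁄Qbar).Point) (hT : P.p • T = 0) : σ • (σ • T - T) = σ • T - T := by
  have h := Fermat.Agent.S05.core P hℓ hℓ2 hℓp A hA σ hσ T hT
  rw [h, sub_self, smul_zero]

/-- (I4) at `p`, from the division-polynomial bound (Σ). -/
theorem blockI4 (P : FreyPackage) (hfin : Finite (V P)) (hcard : Nat.card (V P) ≤ P.p ^ 2)
    (hSigma : ∀ A : ValuationSubring Qbar, A.LiesOverPrime P.p → ∀ S : Finset Qbar,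
      (∀ r ∈ S, ∃ T : (P.freyCurve⁄Qbar).Point, T ≠ 0 ∧ P.p • T = 0 ∧ XOnlyGen.xc T = r) →
      (∀ r ∈ S, r ∉ A) → ∏ r ∈ S, A.valuation r ≤ (A.valuation (P.p : Qbar))⁻¹)
    (X : Submodule (ZMod P.p) (V P)) (hX : IsGaloisStable ℚ X) (hbot : X ≠ ⊥) (htop : X ≠ ⊤) :
    (∀ A : ValuationSubring Qbar, A.LiesOverPrime P.p → ∀ σ ∈ A.inertiaSubgroupIn ℚ,
        ∀ x ∈ X, σ • x = x) ∨
    (∀ A : ValuationSubring Qbar, A.LiesOverPrime P.p → ∀ σ ∈ A.inertiaSubgroupIn ℚ,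
        ∀ x : V P, σ • x - x ∈ X) := by
  refine AtP.atP P hfin hcard ?_ ?_ X hX hbot htop
  · intro A hA σ hσ T hT0 hpT hxT
    exact BpCore.core_p P A hA σ hσ T hpT hT0 hxT
  · intro A hA
    exact Supersingular.not_forall_xc_not_mem P.pp A hA X hX hbot htop hfin (hSigma A hA)

theorem result (P : FreyPackage) (hred : ¬ GaloisRepIsIrreducible (K := AlgebraicClosure ℚ) ℚ P.freyCurve P.p) : HasGaloisStableCofixedLine (K := AlgebraicClosure ℚ) ℚ P.freyCurve P.p := by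
  have I1 : Finite (V P) ∧ Nat.card (V P) ≤ P.p ^ 2 := TorsionXOnly.Frey.card_torsion P
  have hSigma : ∀ A : ValuationSubring Qbar, A.LiesOverPrime P.p → ∀ S : Finset Qbar,
      (∀ r ∈ S, ∃ T : (P.freyCurve⁄Qbar).Point, T ≠ 0 ∧ P.p • T = 0 ∧ XOnlyGen.xc T = r) →
      (∀ r ∈ S, r ∉ A) → ∏ r ∈ S, A.valuation r ≤ (A.valuation (P.p : Qbar))⁻¹ :=
    fun A hA S hS hn => SigmaFrey.sigma_frey P A hA S hS hn
  refine Reduction.result_of_blocks P ?I0 I1 ?I2 ?I3 (blockI4 P I1.1 I1.2 hSigma) blockI5 hred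
  case I0 => exact TorsionXOnly.Frey.exists_torsion P
  case I2 => exact fun T hT hfix => B2RationalH5.I2 P T hT hfix
  case I3 =>
    intro ℓ hℓ hℓp A hA σ hσ T hT
    by_cases hℓ2 : ℓ = 2
    · subst hℓ2
      exact B2Unipotent.I3 P A hA σ hσ T hT
    · exact blockI3_odd P ℓ hℓ hℓ2 hℓp A hA σ hσ T hT

end Fermat.Agent.S13
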