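-- Statement S14 (row 13): `ExtCitation.ExtVanishingCts p` for every prime `p ≥ 3`.
-- Final assembly (architect: helper55).  The proof is the work of the whole S14 team:
--   reduction to number fields      : Cocycle, KernelField, NFGlue (helper14), Lib/Ram/InertiaLifts (helper79 & bridge team)
--   Artin map (existence + lemmas)   : BlockDProof, ArtinMapGen/Norm (helper55), ArtinMap* (helper43/59/69/90)
--   surjectivity (density)           : ZetaSplit (helper73), BlockZFinal
--   Stickelberger endgame            : JacobiFactor, StickelbergerKill (helper85), BlockFProof (helper17), BlockFFinal (helper69)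
--   first inequality                 : HerbrandPrime/Fg, NormIndex* (helper31 & rows 114–119), BlockFirstIneqProof
--   second inequality                : Zeta/*, PartialZeta (helper2 & rows 109–113), EulerIdeal/Index* (helper42/20), SecondIneqFinal
--   cyclotomic reciprocity           : CycloFrob*, NormSurj* (helper35/15), BlockAux* (helper49/20)
--   Artin's crossing                 : Crossing* (helper78 & T-rows), ArtinLemma (helper67/99), MovingLemma (helper17)
import Fermat.Statements.S14
import Fermat.Agent.S14.Assembly2
import Fermat.Agent.Lib.Ram.InertiaLifts
import Fermat.Agent.S14.BlockDProof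
import Fermat.Agent.S14.BlockZFinal
import Fermat.Agent.S14.BlockFFinal
import Fermat.Agent.S14.BlockFirstIneqProof
import Fermat.Agent.S14.BlockAuxClosed
import Fermat.Agent.S14.Crossing

set_option autoImplicit false
open ExtCitation

namespace Fermat.Agent.S14

theorem result {p : ℕ} [Fact p.Prime] (h3 : 3 ≤ p) :
    ExtCitation.ExtVanishingCts p :=
  s14_of_blocks' h3 Fermat.Agent.Lib.Ram.InertiaLifts.inertiaLifts blockD blockZ
    (Crossing.blockRecip blockD blockZ BlockFirstIneqProof.blockFirstIneq BlockAuxClosed.blockAux)
    (BlockFFinal.blockF p)

end Fermat.Agent.S14
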