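-- Statement S21: Eichler–Shimura: the period map of level N is injective and its image is
-- exactly the space of parabolic cohomology classes of Γ₀(N).
-- Proof: injectivity and the upper bound (S21/*), and the dimension count of S20.
import Fermat.Statements.S21
import Fermat.Agent.S20.LowerOfDict
import Fermat.Agent.S20.Dict.DictLowerFinal

set_option autoImplicit false
open ModularCurve

namespace Fermat.Agent.S21

theorem result (N : ℕ) [NeZero N] :
    Function.Injective (ModularCurve.periodHomPair N)
      ∧ LinearMap.range (ModularCurve.periodHomPair N)
          = ModularCurve.Period.parabolicHoms ℂ (CongruenceSubgroup.Gamma0 N) ℂ :=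
  Fermat.Agent.S20.LowerOfDict.s21_of_dict N (Fermat.Agent.S20.Dict.DictLowerFinal.dictLower N)

end Fermat.Agent.S21
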