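-- Statement S20: dim S₂(Γ₀(N)) equals the classical genus formula for X₀(N).
-- Proof: Eichler–Shimura upper bound (S21/*), Riemann–Roch for function fields (S20/*),
-- the genus of the function field of X₀(N) (S24/*), and the dictionary between regular
-- differentials and weight-two cusp forms (S20/Dict/*).
import Fermat.Statements.S20
import Fermat.Agent.S20.LowerOfDict
import Fermat.Agent.S20.Dict.DictLowerFinal

set_option autoImplicit false
open CuspForm

namespace Fermat.Agent.S20

theorem result (N : ℕ) [NeZero N] :
    (Module.finrank ℂ (CuspForm (CongruenceSubgroup.Gamma0 N) 2) : ℚ) = ModularCurve.genusFormula N :=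
  Fermat.Agent.S20.LowerOfDict.s20_of_dict N (Fermat.Agent.S20.Dict.DictLowerFinal.dictLower N)

end Fermat.Agent.S20
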