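import Fermat.Statements.S22
-- import your own Fermat.Agent.* helpers here
import Fermat.Agent.S22.Assembly
import Fermat.Agent.S22.LowWeight
import Fermat.Agent.S22.HeckeStable
import Fermat.Agent.S22.LatticeFG
import Fermat.Agent.S22.Nondegenerate

set_option autoImplicit false
open CuspForm

namespace Fermat.Agent.S22

theorem result (N : ℕ) [NeZero N] (k : ℤ) (S : Set ℕ) :
    Module.Finite ℤ (CuspForm.heckeAlgebra N k S) := by
  by_cases hk : k ≤ 1
  · -- weights `k ≤ 1`: there are no nonzero cusp forms on `Γ₀(N)`
    exact finite_heckeAlgebra_of_forall_eq_zero N k S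
      (fun f => cuspForm_eq_zero_of_weight_le_one N hk f)
  · -- weights `k = w + 2`: the period lattice (modular symbols as functionals) is a finitely
    -- generated, separating, Hecke-stable `ℤ`-lattice of functionals on `S_k(Γ₀(N))`
    obtain ⟨w, rfl⟩ : ∃ w : ℕ, k = (w : ℤ) + 2 := ⟨(k - 2).toNat, by omega⟩
    exact finite_heckeAlgebra_of_lattice N _ S (periodLattice N w) (periodLattice_fg N w)
      (fun f hf => periodLattice_separating N w f hf)
      (fun T hT φ hφ => periodLattice_comp_heckeGenerator w hT hφ)

end Fermat.Agent.S22
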