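import Fermat.Statements.S24
import Fermat.Agent.S24.Reduction
import Fermat.Agent.S24.ZerosBackupThm
import Fermat.Agent.S24.BlockBFinal
import Fermat.Agent.S24.CombBlockC

set_option autoImplicit false
open ModularCurve

namespace Fermat.Agent.S24

theorem result (N : ℕ) [NeZero N]
    [AlgebraicCurve.HasCanonicalDivisor (K := AlgebraicClosure ℚ) (F := ↥(ModularCurve.modularFunctionFieldBar N))] :
    (AlgebraicCurve.genus (AlgebraicClosure ℚ) ↥(ModularCurve.modularFunctionFieldBar N) : ℚ)
      = ModularCurve.genusFormula N :=
  genus_eq_genusFormula_of_blocks N ZerosBackup.hurwitzFormula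
    (BlockBFinal.modularRamificationData N) (Comb.genusFormulaIsNat N)

end Fermat.Agent.S24
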