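import Fermat.Statements.S49
import Fermat.Agent.S49.CongrIdeal
import Fermat.Agent.S49.CommonEigen
import Fermat.Agent.S49.LyingOver
import Fermat.Agent.S49.Finite
import Fermat.Agent.S49.Eigenform

set_option autoImplicit false
open CuspForm EisensteinWeightOne CongruenceSubgroup ModularFormClass
open FLT FLT.AbstractIntegralStructure

namespace Fermat.Agent.S49

theorem result
    {N : ℕ} [NeZero N] (h : CuspForm.HasIntegralBasis N) {a : ℕ → ℤ}
    (heig : FormalHecke.IsEigensystem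
      (fun ℓ => if ℓ ∣ N then 0 else ((chiNegThree ℓ : ℤ) : ℤ)) a)
    (hreal : CuspForm.IsLatticeRealized N a) :
    ∃ (f : CuspForm (Gamma0 N) 2) (_ : f.IsNormalizedEigenform)
      (𝔪' : Ideal (integralClosure ℤ ℂ)), 𝔪'.IsMaximal ∧
      ((3 : ℕ) : integralClosure ℤ ℂ) ∈ 𝔪' ∧
      ∀ (ℓ : ℕ) (_ : ℓ.Prime) (_ : ¬ ℓ ∣ N),
        ∃ c : integralClosure ℤ ℂ, (c : ℂ) = ModularFormClass.qCoeff f ℓ ∧
          c - (a ℓ : integralClosure ℤ ℂ) ∈ 𝔪' := by
  obtain ⟨D⟩ := exists_realData hreal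
  -- a maximal ideal containing the congruence ideal
  obtain ⟨m, hmmax, hIm⟩ := Ideal.exists_le_maximal (congrIdeal D.f₀) (congrIdeal_ne_top D heig.1)
  haveI := hmmax
  haveI : FiniteDimensional ℂ (CuspForm (Gamma0 N) 2) := finiteDimensional_of_hasIntegralBasis h
  haveI : Algebra.IsIntegral ℤ (heckeAlgebra N 2 (∅ : Set ℕ)) := isIntegral_heckeAlgebra h ∅
  -- the tautological representation
  let ρ : heckeAlgebra N 2 (∅ : Set ℕ) →+* Module.End ℂ (CuspForm (Gamma0 N) 2) :=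
    (heckeAlgebra N 2 (∅ : Set ℕ)).val.toRingHom
  have hρ : RingHom.ker ρ ≤ m := by
    intro t ht
    have : t = 0 := Subtype.ext (RingHom.mem_ker.mp ht)
    rw [this]; exact zero_mem _
  obtain ⟨w, χ, hw0, hχ, hker⟩ := exists_eigenvector_ker_le ρ m hρ
  obtain ⟨χ', m', hm'max, hχ', hcomap⟩ := exists_maximal_over χ m hker
  obtain ⟨f, hf, hfl⟩ := exists_normalizedEigenform w hw0 χ hχ
  refine ⟨f, hf, m', hm'max, ?_, ?_⟩
  · have h3 : (3 : heckeAlgebra N 2 (∅ : Set ℕ)) ∈ m := hIm (three_mem_congrIdeal D)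
    rw [← hcomap, Ideal.mem_comap, map_ofNat] at h3
    simpa using h3
  · intro ℓ hℓ hℓN
    refine ⟨χ' (heckeAlgebra.T hℓ hℓN (Set.notMem_empty ℓ)), ?_, ?_⟩
    · rw [hχ', hfl ℓ hℓ hℓN]
    · have hmem := hIm (heckeT_sub_mem_congrIdeal D heig hℓ hℓN)
      rw [← hcomap, Ideal.mem_comap, map_sub, map_intCast] at hmem
      exact hmem

end Fermat.Agent.S49
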