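-- Statement S53 (universal deformation ring).
import Fermat.Statements.S53
import Fermat.Agent.S53.GlueA
import Fermat.Agent.S53.ProConstruction
import Fermat.Agent.S53.ProGoodH
import Fermat.Agent.S53.ProUniversal
import Fermat.Agent.S53.AssemblyNF

set_option autoImplicit false
set_option autoImplicit false
open GaloisRep

namespace Fermat.Agent.S53

theorem result
    (𝒪 : Type) [CommRing 𝒪] [IsDomain 𝒪] [IsDiscreteValuationRing 𝒪]
    [IsAdicComplete (IsLocalRing.maximalIdeal 𝒪) 𝒪] [Finite (IsLocalRing.ResidueField 𝒪)]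
    (ρbar : ResidualGaloisRep (IsLocalRing.ResidueField 𝒪))
    (𝒟 : ∀ ⦃A : Type⦄ [CommRing A] [IsLocalRing A] [Algebra 𝒪 A], GaloisRepAdic A → Prop)
    (habs : ρbar.IsAbsolutelyIrreducible)
    (h𝒟 : GaloisRep.IsDeformationCondition 𝒪 𝒟)
    (hbar : 𝒟 (GaloisRepAdic.ofResidualGaloisRep ρbar))
    (hfin : GaloisRep.TangentFinite 𝒪 ρbar 𝒟) :
    Nonempty (GaloisRep.DeformationRingData 𝒪 ρbar 𝒟) := by
  obtain ⟨rbar, hfl, rt, P, he, hrt, hinf, d, x, 𝔞₀, h₀, hgen⟩ :=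
    GlueA.exists_setup 𝒪 ρbar 𝒟 habs h𝒟 hbar hfin
  obtain ⟨D⟩ := nonempty_proData rt P.E 𝒟 hinf d x 𝔞₀ h₀ hgen
  let U : UnivData rt P.E 𝒟 :=
    { R := D.R
      residue_surjective := D.residue_surjective
      ru := D.ru
      good := ProGoodH.good_ru h𝒟 D
      exists_hom := fun A _ _ _ _ _ _ hA r hr => ProData.exists_hom rt P.E 𝒟 h𝒟 D A hA r hr
      hom_ext := fun A _ _ _ _ _ _ φ φ' hφ hφ' h => ProData.hom_ext rt P.E 𝒟 D A φ φ' hφ hφ' h }
  exact AssemblyNF.nonempty_deformationRingData_of_univData rt 𝒟 ρbar habs h𝒟 rbar hfl he hrt P U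

end Fermat.Agent.S53
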