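import Fermat.Statements.S57
import Fermat.Agent.S57.RestrictFree
import Fermat.Agent.S57.PowerSeriesRegular
import Fermat.Agent.S57.Endgame

set_option autoImplicit false
open Algebra Algebra.PatchingLevel

namespace Fermat.Agent.S57

/-- The underlying module of a patching level with trivial relation ideal is free over the
power series ring. -/
theorem free_N
    {𝒪 : Type} [CommRing 𝒪] [IsDomain 𝒪] [IsDiscreteValuationRing 𝒪]
    {r : ℕ} {R : Type} [CommRing R] [Algebra 𝒪 R]
    {M : Type} [AddCommGroup M] [Module R M] [Nontrivial M]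
    (L : Algebra.PatchingLevel 𝒪 r R M ⊥) :
    Module.Free (MvPowerSeries (Fin r) 𝒪) L.N := by
  classical
  -- the additive map `c ↦ ∑ φ (c i) • b i`
  let f : (Fin L.d → MvPowerSeries (Fin r) 𝒪) →+ L.N :=
    { toFun := fun c => ∑ i, L.φ (c i) • L.b i
      map_zero' := by simp
      map_add' := fun c c' => by
        simp only [Pi.add_apply, map_add, add_smul, Finset.sum_add_distrib] }
  have hf : ∀ c, f c = ∑ i, L.φ (c i) • L.b i := fun _ => rfl
  have hinj : Function.Injective f := by
    rw [injective_iff_map_eq_zero]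
    intro c hc
    have := (L.b_rel c).mp hc
    funext i
    simpa using this i
  have hsurj : Function.Surjective f := by
    intro x
    obtain ⟨c, hc⟩ := L.b_span x
    exact ⟨c, hc.symm⟩
  let e : (Fin L.d → MvPowerSeries (Fin r) 𝒪) ≃+ L.N :=
    AddEquiv.ofBijective f ⟨hinj, hsurj⟩
  have he : ∀ (a : MvPowerSeries (Fin r) 𝒪) (c : Fin L.d → MvPowerSeries (Fin r) 𝒪),
      e (a • c) = (L.φ : MvPowerSeries (Fin r) 𝒪 →+* MvPowerSeries (Fin r) 𝒪) a • e c := by
    intro a c
    change f (a • c) = L.φ a • f c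
    rw [hf, hf, Finset.smul_sum]
    refine Finset.sum_congr rfl fun i _ => ?_
    rw [Pi.smul_apply, smul_eq_mul, map_mul, mul_smul]
  have : Nontrivial L.N := by
    obtain ⟨m, hm⟩ := exists_ne (0 : M)
    obtain ⟨x, rfl⟩ := L.π_surjective m
    exact ⟨⟨x, 0, fun h => hm (by rw [h, map_zero])⟩⟩
  obtain ⟨ys, hys, hmax⟩ := exists_regular_generators (O := 𝒪) r
  exact free_of_free_restrictScalars
    (L.φ : MvPowerSeries (Fin r) 𝒪 →+* MvPowerSeries (Fin r) 𝒪)
    ys hys.toIsWeaklyRegular hmax ys hys hmax le_rfl e he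

theorem result
    {𝒪 : Type} [CommRing 𝒪] [IsDomain 𝒪] [IsDiscreteValuationRing 𝒪]
    {r : ℕ} {R : Type} [CommRing R] [Algebra 𝒪 R]
    {M : Type} [AddCommGroup M] [Module R M] [Nontrivial M]
    (L : Algebra.PatchingLevel 𝒪 r R M ⊥) :
    Module.Free R M ∧ Module.annihilator R M = ⊥ ∧
      RingHom.ker L.ψ = Ideal.span (Set.range fun i : Fin r => L.φ (MvPowerSeries.X i)) := by
  have := free_N L
  exact endgame L

end Fermat.Agent.S57
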